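import Fermat.Agent.S17.H497.DiscBound
import Fermat.Agent.S55.Bridge.H594.Unram

/-!
# S17 / W-HM (helper497): Hermite–Minkowski for subfields of `ℚ̄`

`finite_unramified_fields` : for a finite set `S` of primes and `d : ℕ` there are only finitely
many subfields `K ⊂ ℚ̄` with `[K : ℚ] ≤ d` such that all inertia groups (of valuation subrings of
`ℚ̄`) at primes `ℓ ∉ S` fix `K` pointwise.  (EXACT statement of `Skel.finite_unramified_fields`
with `Skel.UnramifiedAt` unfolded.)

Proof: pass to the Galois closure `L` (degree `≤ d!`, still unramified outside `S`), translate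
to ramification indices (S55 bridge, helper594), bound the discriminant (`DiscBound.lean`),
apply Hermite's theorem (`NumberField.finite_of_discr_bdd`), and use that a number field has
finitely many subfields.
-/

set_option autoImplicit false
set_option linter.style.haveILetI false

open NumberField IntermediateField
open scoped Pointwise

namespace Fermat.Agent.S17.H497

open Fermat.Agent.S55.Bridge Fermat.Agent.S55.Bridge.H594

local notation "Qb" => AlgebraicClosure ℚ
local notation "GQ" => (AlgebraicClosure ℚ ≃ₐ[ℚ] AlgebraicClosure ℚ)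

attribute [local instance] isAlgebraic_Qbar isGalois_Qbar numberField_of_finite

/-- The index of the normal core divides the factorial of the index. -/
theorem index_normalCore_dvd_factorial {G : Type*} [Group G] (H : Subgroup G)
    (hH : H.index ≠ 0) : H.normalCore.index ∣ H.index.factorial := by
  haveI : H.FiniteIndex := ⟨hH⟩
  haveI : Finite (G ⧸ H) := Subgroup.finite_quotient_of_finiteIndex
  rw [Subgroup.normalCore_eq_ker, Subgroup.index_ker, Subgroup.index_eq_card, ← Nat.card_perm]
  exact Subgroup.card_subgroup_dvd_card (MulAction.toPermHom G (G ⧸ H)).range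

/-- The Prelude-style unramifiedness condition outside `S`. -/
def IsUnrOut (S : Finset ℕ) (K : IntermediateField ℚ Qb) : Prop :=
  ∀ ℓ : ℕ, ℓ.Prime → ℓ ∉ S → ∀ A : ValuationSubring Qb, A.LiesOverPrime ℓ →
    ∀ σ ∈ A.inertiaSubgroupIn ℚ, ∀ a ∈ K, σ a = a

theorem isUnrOut_iff (S : Finset ℕ) (K : IntermediateField ℚ Qb) :
    IsUnrOut S K ↔ ∀ ℓ : ℕ, ℓ.Prime → ℓ ∉ S → ∀ A : ValuationSubring Qb, A.LiesOverPrime ℓ →
      A.inertiaSubgroupIn ℚ ≤ K.fixingSubgroup := by
  unfold IsUnrOut
  refine forall_congr' fun ℓ => forall_congr' fun _ => forall_congr' fun _ =>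
    forall_congr' fun A => forall_congr' fun _ => ?_
  constructor
  · intro h σ hσ
    rw [IntermediateField.mem_fixingSubgroup_iff]
    exact h σ hσ
  · intro h σ hσ
    exact (IntermediateField.mem_fixingSubgroup_iff K σ).1 (h hσ)

/-- Galois closure with control of degree and ramification. -/
theorem exists_galois_closure (S : Finset ℕ) (K : IntermediateField ℚ Qb)
    [FiniteDimensional ℚ K] (hK : IsUnrOut S K) :
    ∃ L : IntermediateField ℚ Qb, FiniteDimensional ℚ L ∧ IsGalois ℚ L ∧ K ≤ L ∧
      Module.finrank ℚ L ∣ (Module.finrank ℚ K).factorial ∧ IsUnrOut S L := by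
  rw [isUnrOut_iff] at hK
  haveI : (K.fixingSubgroup.normalCore).Normal := Subgroup.normalCore_normal _
  have hfinN : FiniteDimensional ℚ (IntermediateField.normalClosure ℚ K Qb) :=
    normalClosure.is_finiteDimensional ℚ K Qb
  have hgalN : IsGalois ℚ (IntermediateField.normalClosure ℚ K Qb) :=
    IsGalois.normalClosure ℚ K Qb
  have hnormal : (IntermediateField.normalClosure ℚ K Qb).fixingSubgroup.Normal :=
    (InfiniteGalois.normal_iff_isGalois _).2 hgalN
  have hle : (IntermediateField.normalClosure ℚ K Qb).fixingSubgroup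
      ≤ K.fixingSubgroup.normalCore := by
    rw [Subgroup.normal_le_normalCore]
    exact IntermediateField.fixingSubgroup_antitone (IntermediateField.le_normalClosure K)
  classical
  let S' : Finset Nat.Primes := S.subtype Nat.Prime
  obtain ⟨L, hL, hgal, hfix, -⟩ := exists_galois_level_of_subgroup
    S' K.fixingSubgroup.normalCore
    (IntermediateField.normalClosure ℚ K Qb) hfinN hle
    (by
      intro q hq A hA σ hσ
      have hqS : (q : ℕ) ∉ S := fun h => hq (Finset.mem_subtype.2 h)
      rw [Subgroup.normalCore]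
      intro b
      have h1 := conj_mem_inertiaSubgroupIn A b σ hσ
      exact hK q q.2 hqS (b • A) (liesOverPrime_smul A b q hA) h1)
  have hKL : K ≤ L := by
    have h2 : L.fixingSubgroup ≤ K.fixingSubgroup := by
      rw [hfix]
      exact Subgroup.normalCore_le _
    rw [← InfiniteGalois.fixedField_fixingSubgroup K, ← InfiniteGalois.fixedField_fixingSubgroup L]
    exact IntermediateField.fixedField_antitone h2
  refine ⟨L, hL.1, hgal, hKL, ?_, ?_⟩
  · rw [IntermediateField.finrank_eq_fixingSubgroup_index Qb L,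
      IntermediateField.finrank_eq_fixingSubgroup_index Qb K, hfix]
    apply index_normalCore_dvd_factorial
    rw [← IntermediateField.finrank_eq_fixingSubgroup_index Qb K]
    exact Module.finrank_pos.ne'
  · rw [isUnrOut_iff]
    intro ℓ hℓ hℓS A hA
    exact hL.2 ⟨ℓ, hℓ⟩ (fun h => hℓS (Finset.mem_subtype.1 h)) A hA

/-- The discriminant bound `B(S, D) = (∏_{p ∈ S prime} p ^ D) ^ D`. -/
def discBound (S : Finset ℕ) (D : ℕ) : ℕ := (∏ p ∈ S.filter Nat.Prime, p ^ D) ^ D

theorem prod_pow_pow_le (S : Finset ℕ) {n D : ℕ} (h : n ≤ D) :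
    (∏ p ∈ S.filter Nat.Prime, p ^ n) ^ n ≤ discBound S D := by
  unfold discBound
  have hpos : ∀ p ∈ S.filter Nat.Prime, 1 ≤ p := fun p hp =>
    (Finset.mem_filter.1 hp).2.one_le
  have h1 : ∏ p ∈ S.filter Nat.Prime, p ^ n ≤ ∏ p ∈ S.filter Nat.Prime, p ^ D :=
    Finset.prod_le_prod' fun p hp => Nat.pow_le_pow_right (hpos p hp) h
  have h2 : 1 ≤ ∏ p ∈ S.filter Nat.Prime, p ^ D :=
    Finset.one_le_prod' fun p hp => Nat.one_le_pow _ _ (hpos p hp)
  calc (∏ p ∈ S.filter Nat.Prime, p ^ n) ^ n
      ≤ (∏ p ∈ S.filter Nat.Prime, p ^ D) ^ n := Nat.pow_le_pow_left h1 n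
    _ ≤ (∏ p ∈ S.filter Nat.Prime, p ^ D) ^ D := Nat.pow_le_pow_right h2 h

/-- Discriminant bound for a finite Galois subfield of `ℚ̄` unramified outside `S`. -/
theorem abs_discr_le (S : Finset ℕ) (D : ℕ) (L : IntermediateField ℚ Qb)
    [FiniteDimensional ℚ L] [IsGalois ℚ L] (hdeg : Module.finrank ℚ L ≤ D)
    (hL : IsUnrOut S L) : |discr L| ≤ (discBound S D : ℤ) := by
  have hur : ∀ q : ℕ, q.Prime → q ∉ S →
      (Ideal.span {(q : ℤ)}).ramificationIdxIn (𝓞 L) = 1 := fun q hq hqS =>
    (inertia_le_fixingSubgroup_iff_ramificationIdxIn L hq).mp ((isUnrOut_iff S L).1 hL q hq hqS)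
  have h1 := natAbs_discr_dvd_of_unramified_outside L S hur
  have hpos : 0 < (∏ p ∈ S.filter Nat.Prime, p ^ Module.finrank ℚ L) ^ Module.finrank ℚ L := by
    apply pow_pos
    exact Finset.prod_pos fun p hp => pow_pos (Finset.mem_filter.1 hp).2.pos _
  have h2 : (discr L).natAbs ≤ discBound S D :=
    (Nat.le_of_dvd hpos h1).trans (prod_pow_pow_le S hdeg)
  rw [Int.abs_eq_natAbs]
  exact_mod_cast h2

/-- A finite extension of `ℚ` inside `ℚ̄` has finitely many subfields. -/
theorem finite_le (L : IntermediateField ℚ Qb) [FiniteDimensional ℚ L] :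
    {K : IntermediateField ℚ Qb | K ≤ L}.Finite := by
  have hfin : Finite (IntermediateField ℚ L) :=
    Field.finite_intermediateField_of_exists_primitive_element ℚ L
      (Field.exists_primitive_element ℚ L)
  refine (@Set.finite_range _ _ (IntermediateField.lift (F := L)) hfin).subset ?_
  intro K hK
  exact ⟨IntermediateField.restrict hK, IntermediateField.lift_restrict hK⟩

/-- **W-HM (Hermite–Minkowski).**  Finitely many subfields of `ℚ̄` of degree `≤ d` unramified
outside `S`.  (Exact statement of the S17 skeleton, `UnramifiedAt` unfolded.) -/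
theorem finite_unramified_fields (S : Finset ℕ) (d : ℕ) :
    {K : IntermediateField ℚ Qb | FiniteDimensional ℚ K ∧ Module.finrank ℚ K ≤ d ∧
      ∀ ℓ : ℕ, ℓ.Prime → ℓ ∉ S → ∀ A : ValuationSubring Qb, A.LiesOverPrime ℓ →
        ∀ σ ∈ A.inertiaSubgroupIn ℚ, ∀ a ∈ K, σ a = a}.Finite := by
  have hfin := NumberField.finite_of_discr_bdd Qb (discBound S d.factorial)
  refine (Set.Finite.biUnion hfin (fun L _ => by
    haveI := L.2
    exact finite_le L.1)).subset ?_
  rintro K ⟨hKfin, hKdeg, hK⟩
  haveI := hKfin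
  obtain ⟨L, hLfin, hLgal, hKL, hdeg, hL⟩ := exists_galois_closure S K hK
  haveI := hLfin
  haveI := hLgal
  have hdeg' : Module.finrank ℚ L ≤ d.factorial :=
    (Nat.le_of_dvd (Nat.factorial_pos _) hdeg).trans (Nat.factorial_le hKdeg)
  refine Set.mem_iUnion₂.2 ⟨⟨L, hLfin⟩, ?_, hKL⟩
  exact abs_discr_le S d.factorial L hdeg' hL

end Fermat.Agent.S17.H497
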