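import Fermat.Agent.S17.H497.RtData
import Fermat.Agent.S17.H500.TopFinal2
import Fermat.Agent.S17.H710.Wall.Main
import Fermat.Agent.S17.H290.GaussMain
import Fermat.Agent.S17.H320.WeilOfWHM

/-!
# S17 / tower H — CLOSED (helper497): `HasDescentHeight N 2`, unconditionally

* `gaussCan497 E hBig : HContract.GAUSSCanStatement E` for every embedding of degree `≥ 4g + 1`
  of a function field over `ℚ̄` (`H290.gaussCan_main` + `H320.weil` + wall leaves A3 `H740`,
  G-PT `H440`);
* `gaussRt_cusp497` : the field `gauss` of `H500.Final.WallInputs N` (bridge RT-DATA of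
  `S17/H497/RtData.lean` with the rational coordinate `H680.JZero.exists_rational_coordinate`);
* `wallInputs497 N : H500.Final.WallInputs N`;
* `hasDescentHeight497 N : H17.HasDescentHeight N 2`  — the input `hH` of
  `H17.result_of_core`.
-/

set_option autoImplicit false

noncomputable section

open AlgebraicCurve ModularCurve

namespace Fermat.Agent.S17.H497

open Fermat.Agent.Lib.RR Fermat.Agent.S17.HWall Fermat.Agent.S17.HContract
open Fermat.Agent.S17.H77 Fermat.Agent.S17.H680

/-- **(GAUSS) at all canonical divisors**, for every embedding of degree `≥ 4g + 1` over `ℚ̄`. -/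
theorem gaussCan497 {F : Type} [Field F] [Algebra Qb F] [FF1 Qb F] (E : EmbData Qb F)
    (hBig : Fermat.Agent.S17.Wall.Big E) : GAUSSCanStatement E := by
  have := Fermat.Agent.S17.H77.isAlgebraic_Qb
  exact Fermat.Agent.S17.H290.gaussCan_main E hBig
    (Fermat.Agent.S17.H320.weil E (Fermat.Agent.S17.H740.multislot Qb)
      (Fermat.Agent.S17.H440.ptStatement E))

/-- **The field `gauss` of `WallInputs N`.** -/
theorem gaussRt_cusp497 (N : ℕ) [NeZero N] (E : EmbData Qb (modularFunctionFieldBar N))
    (hvinf : E.vinf = JZero.cusp N)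
    (hBig : 4 * genusR Qb (modularFunctionFieldBar N) + 1 ≤ E.m) :
    ∃ Rt : Divisor Qb (modularFunctionFieldBar N), 0 ≤ Rt ∧
      IsInvariant (modularFunctionFieldFull N) Rt ∧ Rt (JZero.cusp N) = 0 ∧
      Fermat.Agent.S17.H35.GaussRtStatement E Rt
        (Divisor.degree Rt - (2 * (genusR Qb (modularFunctionFieldBar N) : ℤ) - 2)) := by
  obtain ⟨t, htmem, htfix, hnc⟩ := JZero.exists_rational_coordinate N
  have hinf : IsInvariant (modularFunctionFieldFull N) (prim E.vinf) := by
    intro σ
    rw [hvinf, smul_prim, JZero.galois_smul_cusp]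
  have htmem' : t ∈ riemannRochSpace (E.m • prim E.vinf) := by
    rw [hvinf]
    refine L_mono ?_ htmem
    rw [Finsupp.le_def]
    intro v
    rw [Finsupp.smul_apply, Finsupp.smul_apply]
    by_cases hv : v = JZero.cusp N
    · subst hv
      rw [prim_apply_self, nsmul_eq_mul, nsmul_eq_mul, mul_one, mul_one]
      exact_mod_cast (by omega : genusR Qb (modularFunctionFieldBar N) + 1 ≤ E.m)
    · rw [prim_apply_of_ne hv, smul_zero, smul_zero]
  obtain ⟨Rt, h0, hinv, hRinf, hG⟩ :=
    exists_rtData_deg497 (modularFunctionFieldFull N) E hinf htfix htmem' hnc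
      (gaussCan497 E hBig)
  exact ⟨Rt, h0, hinv, by rw [← hvinf]; exact hRinf, hG⟩

/-- **All inputs of TOP** (WALL + GAUSS). -/
theorem wallInputs497 (N : ℕ) [NeZero N] : Fermat.Agent.S17.H500.Final.WallInputs N := by
  have := Fermat.Agent.S17.H77.isAlgebraic_Qb
  exact
    { wall_e3 := fun E h => Fermat.Agent.S17.Wall.e3_main E h
      wall_adj := fun E h => Fermat.Agent.S17.Wall.adj_main E h
      wall_vdm := fun E d₀ h hd => Fermat.Agent.S17.Wall.vdm_main E h d₀ hd
      gauss := fun E hvinf _ hBig _ _ => gaussRt_cusp497 N E hvinf hBig }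

/-- **TOWER H.**  The descent height on `J₀(N)(ℚ)`. -/
theorem hasDescentHeight497 (N : ℕ) [NeZero N] : Fermat.Agent.S17.H17.HasDescentHeight N 2 :=
  Fermat.Agent.S17.H500.Final.hasDescentHeight_of_wallInputs N (wallInputs497 N)

end Fermat.Agent.S17.H497
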