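import Mathlib

/-!
# S17 / W-HM (helper497), part A: a crude discriminant bound for Galois number fields

Let `L/ℚ` be a finite Galois extension of degree `n`, `𝔇` its different.

* `dvd_finrank_of_different_le_span` : if `𝔇 ⊆ m 𝓞_L` then `m ∣ n` (trace of `1/m`).
* `smul_mem_differentIdeal` : `𝔇` is stable under `Gal(L/ℚ)`.
* `different_le_span_pow_of_le_pow` : if `P ^ (e k) ∣ 𝔇` for ONE prime `P ∣ p` then `p ^ k ∣ 𝔇`.
* `natAbs_discr_dvd_of_unramified_outside` : if every prime `q ∉ S` has ramification index `1`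
  then `|disc L| ∣ (∏_{p ∈ S prime} p ^ n) ^ n`.
-/

set_option autoImplicit false
set_option linter.style.haveILetI false

open NumberField
open scoped Pointwise

namespace Fermat.Agent.S17.H497

section Different

variable (L : Type*) [Field L] [NumberField L]

/-- Elementwise description of the different: `x ∈ 𝔇` iff `x y ∈ 𝓞_L` for every `y` in the
trace dual of `𝓞_L`. -/
theorem mem_differentIdeal_iff (x : 𝓞 L) :
    x ∈ differentIdeal ℤ (𝓞 L) ↔
      ∀ y : L, (∀ z : 𝓞 L, Algebra.trace ℚ L (y * z) ∈ (algebraMap ℤ ℚ).range) →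
        (x : L) * y ∈ (algebraMap (𝓞 L) L).range := by
  have h1 : x ∈ differentIdeal ℤ (𝓞 L) ↔ (algebraMap (𝓞 L) L x) ∈
      ((differentIdeal ℤ (𝓞 L) : Ideal (𝓞 L)) : FractionalIdeal (nonZeroDivisors (𝓞 L)) L) := by
    rw [FractionalIdeal.mem_coeIdeal]
    constructor
    · intro h
      exact ⟨x, h, rfl⟩
    · rintro ⟨x', hx', h⟩
      rwa [← FaithfulSMul.algebraMap_injective (𝓞 L) L h]
  have hone : (1 : FractionalIdeal (nonZeroDivisors (𝓞 L)) L) ≠ 0 := one_ne_zero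
  rw [h1, coeIdeal_differentIdeal ℤ ℚ L (𝓞 L),
    FractionalIdeal.mem_inv_iff (FractionalIdeal.dual_ne_zero ℤ ℚ hone)]
  constructor
  · intro h y hy
    have hy' : y ∈ FractionalIdeal.dual ℤ ℚ (1 : FractionalIdeal (nonZeroDivisors (𝓞 L)) L) := by
      rw [FractionalIdeal.mem_dual hone]
      intro a ha
      obtain ⟨z, rfl⟩ := (FractionalIdeal.mem_one_iff _).1 ha
      exact hy z
    obtain ⟨w, hw⟩ := (FractionalIdeal.mem_one_iff _).1 (h y hy')
    exact ⟨w, hw⟩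
  · intro h y hy
    rw [FractionalIdeal.mem_dual hone] at hy
    obtain ⟨w, hw⟩ := h y (fun z => hy _ ((FractionalIdeal.mem_one_iff _).2 ⟨z, rfl⟩))
    exact (FractionalIdeal.mem_one_iff _).2 ⟨w, hw⟩

/-- If the different is contained in `m 𝓞_L` then `m` divides the degree. -/
theorem dvd_finrank_of_different_le_span (m : ℕ) (hm : m ≠ 0)
    (h : differentIdeal ℤ (𝓞 L) ≤ Ideal.span {(m : 𝓞 L)}) : m ∣ Module.finrank ℚ L := by
  have hm' : (m : 𝓞 L) ≠ 0 := Nat.cast_ne_zero.2 hm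
  have hmL : (m : L) ≠ 0 := Nat.cast_ne_zero.2 hm
  have hI : Ideal.span {(m : 𝓞 L)} ≠ ⊥ := by
    rw [Ne, Ideal.span_singleton_eq_bot]
    exact hm'
  have hI' : ((Ideal.span {(m : 𝓞 L)} : Ideal (𝓞 L)) :
      FractionalIdeal (nonZeroDivisors (𝓞 L)) L) ≠ 0 := by
    rwa [Ne, FractionalIdeal.coeIdeal_eq_zero]
  rw [differentialIdeal_le_iff (K := ℚ) (L := L) hI] at h
  have hmem : ((m : L)⁻¹) ∈ ((Ideal.span {(m : 𝓞 L)} : Ideal (𝓞 L)) :
      FractionalIdeal (nonZeroDivisors (𝓞 L)) L)⁻¹ := by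
    rw [FractionalIdeal.mem_inv_iff hI']
    intro y hy
    obtain ⟨y', hy', rfl⟩ := (FractionalIdeal.mem_coeIdeal _).1 hy
    obtain ⟨c, rfl⟩ := Ideal.mem_span_singleton'.1 hy'
    refine (FractionalIdeal.mem_one_iff _).2 ⟨c, ?_⟩
    rw [map_mul, map_natCast]
    field_simp
  have htr : Algebra.trace ℚ L ((m : L)⁻¹) ∈ (1 : Submodule ℤ ℚ) := by
    apply h
    exact ⟨_, hmem, rfl⟩
  obtain ⟨c, hc⟩ := Submodule.mem_one.1 htr
  have h2 : Algebra.trace ℚ L ((m : L)⁻¹) = (Module.finrank ℚ L : ℚ) * (m : ℚ)⁻¹ := by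
    have : ((m : L)⁻¹) = algebraMap ℚ L ((m : ℚ)⁻¹) := by
      rw [map_inv₀, map_natCast]
    rw [this, Algebra.trace_algebraMap, nsmul_eq_mul]
  rw [h2] at hc
  have hmQ : (m : ℚ) ≠ 0 := Nat.cast_ne_zero.2 hm
  have h3 : ((Module.finrank ℚ L : ℤ) : ℚ) = ((m : ℤ) * c : ℤ) := by
    push_cast
    have : (algebraMap ℤ ℚ) c = (c : ℚ) := rfl
    rw [this] at hc
    field_simp at hc
    linarith
  have h4 : (Module.finrank ℚ L : ℤ) = (m : ℤ) * c := by exact_mod_cast h3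
  exact Int.natCast_dvd_natCast.1 ⟨c, h4⟩

/-- The different is stable under the Galois group. -/
theorem smul_mem_differentIdeal (σ : L ≃ₐ[ℚ] L) {x : 𝓞 L}
    (hx : x ∈ differentIdeal ℤ (𝓞 L)) : σ • x ∈ differentIdeal ℤ (𝓞 L) := by
  rw [mem_differentIdeal_iff] at hx ⊢
  intro y hy
  have hy' : ∀ z : 𝓞 L, Algebra.trace ℚ L (σ.symm y * z) ∈ (algebraMap ℤ ℚ).range := by
    intro z
    have h1 : σ.symm y * (z : L) = σ.symm (y * ((σ • z : 𝓞 L) : L)) := by
      rw [map_mul]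
      congr 1
      exact (σ.symm_apply_apply (z : L)).symm
    rw [h1, Algebra.trace_eq_of_algEquiv]
    exact hy (σ • z)
  obtain ⟨w, hw⟩ := hx (σ.symm y) hy'
  refine ⟨σ • w, ?_⟩
  have h2 : ((σ • w : 𝓞 L) : L) = σ ((w : 𝓞 L) : L) := rfl
  have h3 : ((σ • x : 𝓞 L) : L) = σ ((x : 𝓞 L) : L) := rfl
  show ((σ • w : 𝓞 L) : L) = ((σ • x : 𝓞 L) : L) * y
  rw [h2, h3]
  have hw' : ((w : 𝓞 L) : L) = (x : L) * σ.symm y := hw
  rw [hw', map_mul, σ.apply_symm_apply]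

/-- If the different is contained in an ideal `I`, it is contained in all its conjugates. -/
theorem differentIdeal_le_smul (σ : L ≃ₐ[ℚ] L) {I : Ideal (𝓞 L)}
    (h : differentIdeal ℤ (𝓞 L) ≤ I) : differentIdeal ℤ (𝓞 L) ≤ σ • I := by
  intro x hx
  have h1 : σ⁻¹ • x ∈ I := h (smul_mem_differentIdeal L σ⁻¹ hx)
  have h2 : σ • (σ⁻¹ • x) ∈ σ • I := Ideal.smul_mem_pointwise_smul_iff.2 h1
  rwa [smul_inv_smul] at h2

section Galois

variable [IsGalois ℚ L]

omit [IsGalois ℚ L] in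
theorem smul_ideal_pow (σ : L ≃ₐ[ℚ] L) (I : Ideal (𝓞 L)) (n : ℕ) :
    σ • (I ^ n) = (σ • I) ^ n := by
  rw [Ideal.pointwise_smul_def, Ideal.pointwise_smul_def, Ideal.map_pow]

/-- Key lemma: if `P ^ (e k)` divides the different for ONE prime `P` over `p` (`e` the
ramification index of `p`), then `p ^ k` divides the different. -/
theorem different_le_span_pow_of_le_pow {p : ℕ} (hp : p.Prime) (P : Ideal (𝓞 L)) [P.IsPrime]
    [P.LiesOver (Ideal.span {(p : ℤ)})] (k : ℕ)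
    (h : differentIdeal ℤ (𝓞 L) ≤
      P ^ ((Ideal.span {(p : ℤ)}).ramificationIdxIn (𝓞 L) * k)) :
    differentIdeal ℤ (𝓞 L) ≤ Ideal.span {((p ^ k : ℕ) : 𝓞 L)} := by
  classical
  have hgal : IsGaloisGroup (L ≃ₐ[ℚ] L) ℤ (𝓞 L) :=
    IsGaloisGroup.of_isFractionRing (L ≃ₐ[ℚ] L) ℤ (𝓞 L) ℚ L
  have hmax : (Ideal.span {(p : ℤ)}).IsMaximal :=
    PrincipalIdealRing.isMaximal_of_irreducible (Nat.prime_iff_prime_int.mp hp).irreducible
  have hp0 : Ideal.span {(p : ℤ)} ≠ 0 := by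
    rw [Ne, Ideal.zero_eq_bot, Ideal.span_singleton_eq_bot]
    exact_mod_cast hp.ne_zero
  set e := (Ideal.span {(p : ℤ)}).ramificationIdxIn (𝓞 L) with he
  have hfac := Ideal.map_algebraMap_eq_finsetProd_pow (R := 𝓞 L) (S := ℤ) hp0
  have hmap : Ideal.map (algebraMap ℤ (𝓞 L)) (Ideal.span {(p : ℤ)}) =
      Ideal.span {(p : 𝓞 L)} := by
    rw [Ideal.map_span, Set.image_singleton]
    simp
  have hQ : ∀ Q ∈ ((Ideal.span {(p : ℤ)}).primesOver (𝓞 L)).toFinset,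
      Q.IsPrime ∧ Q.LiesOver (Ideal.span {(p : ℤ)}) := by
    intro Q hQ
    rw [Set.mem_toFinset] at hQ
    exact hQ
  have hpow : Ideal.span {((p ^ k : ℕ) : 𝓞 L)} =
      ∏ Q ∈ ((Ideal.span {(p : ℤ)}).primesOver (𝓞 L)).toFinset, Q ^ (e * k) := by
    have h1 : Ideal.span {((p ^ k : ℕ) : 𝓞 L)} = Ideal.span {(p : 𝓞 L)} ^ k := by
      rw [Ideal.span_singleton_pow]
      push_cast
      rfl
    rw [h1, ← hmap, hfac, ← Finset.prod_pow]
    refine Finset.prod_congr rfl fun Q hQ' => ?_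
    obtain ⟨hQ1, hQ2⟩ := hQ Q hQ'
    rw [← pow_mul, he, Ideal.ramificationIdxIn_eq_ramificationIdx (Ideal.span {(p : ℤ)}) Q
      (L ≃ₐ[ℚ] L)]
  rw [hpow, ← IsDedekindDomain.inf_pow_eq_prod_of_prime _ (fun Q => Q) (fun _ => e * k)]
  · refine Finset.le_inf fun Q hQ' => ?_
    obtain ⟨hQ1, hQ2⟩ := hQ Q hQ'
    obtain ⟨σ, hσ⟩ := Ideal.exists_smul_eq_of_isGaloisGroup (Ideal.span {(p : ℤ)}) P Q
      (L ≃ₐ[ℚ] L)
    have := differentIdeal_le_smul L σ h
    rwa [smul_ideal_pow, hσ] at this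
  · intro Q hQ'
    obtain ⟨hQ1, hQ2⟩ := hQ Q hQ'
    exact Ideal.prime_of_isPrime
      (Ideal.ne_bot_of_liesOver_of_ne_bot (p := Ideal.span {(p : ℤ)}) hp0 Q) hQ1
  · intro Q _ Q' _ hne
    exact hne

/-- A prime number `p` and the degree `n ≥ 1`: `p ^ n` does not divide `n`. -/
theorem not_prime_pow_dvd_self {p n : ℕ} (hp : p.Prime) (hn : 0 < n) : ¬ p ^ n ∣ n := by
  intro h
  have h1 : p ^ n ≤ n := Nat.le_of_dvd hn h
  have h2 : n < p ^ n := Nat.lt_pow_self hp.one_lt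
  omega

/-- **Divisibility bound for the different.**  If every prime `q ∉ S` has ramification index `1`
in the Galois number field `L` of degree `n`, then `𝔇 ∣ (∏_{p ∈ S prime} p ^ n)`. -/
theorem differentIdeal_dvd_span_of_unramified_outside (S : Finset ℕ)
    (hur : ∀ q : ℕ, q.Prime → q ∉ S →
      (Ideal.span {(q : ℤ)}).ramificationIdxIn (𝓞 L) = 1) :
    differentIdeal ℤ (𝓞 L) ∣
      Ideal.span {((∏ p ∈ S.filter Nat.Prime, p ^ Module.finrank ℚ L : ℕ) : 𝓞 L)} := by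
  classical
  have hgal : IsGaloisGroup (L ≃ₐ[ℚ] L) ℤ (𝓞 L) :=
    IsGaloisGroup.of_isFractionRing (L ≃ₐ[ℚ] L) ℤ (𝓞 L) ℚ L
  set n := Module.finrank ℚ L with hn
  have hn0 : 0 < n := Module.finrank_pos
  have hD0 : differentIdeal ℤ (𝓞 L) ≠ 0 := differentIdeal_ne_bot
  rw [UniqueFactorizationMonoid.dvd_iff_emultiplicity_le hD0]
  intro P hP
  rw [emultiplicity_le_emultiplicity_iff]
  intro m hm
  rcases Nat.eq_zero_or_pos m with rfl | hmpos
  · rw [pow_zero]; exact one_dvd _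
  have hPprime : P.IsPrime := Ideal.isPrime_of_prime hP
  have hPne : P ≠ ⊥ := hP.ne_zero
  haveI : NeZero P := ⟨hPne⟩
  have hPD : P ∣ differentIdeal ℤ (𝓞 L) := (dvd_pow_self P hmpos.ne').trans hm
  -- the prime number below `P`
  set p := Ideal.absNorm (Ideal.under ℤ P) with hpdef
  have hp : p.Prime := Nat.absNorm_under_prime P
  haveI hlies : P.LiesOver (Ideal.span {(p : ℤ)}) := Int.liesOver_span_absNorm P
  have hmax : (Ideal.span {(p : ℤ)}).IsMaximal :=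
    PrincipalIdealRing.isMaximal_of_irreducible (Nat.prime_iff_prime_int.mp hp).irreducible
  have he : (Ideal.span {(p : ℤ)}).ramificationIdxIn (𝓞 L) = P.ramificationIdx ℤ :=
    Ideal.ramificationIdxIn_eq_ramificationIdx (Ideal.span {(p : ℤ)}) P (L ≃ₐ[ℚ] L)
  -- `p ∈ S`
  have hpS : p ∈ S := by
    by_contra hpS
    have h1 := hur p hp hpS
    rw [he] at h1
    have h2 : Algebra.IsUnramifiedAt ℤ P := Ideal.ramificationIdx_eq_one_iff.1 h1
    exact (dvd_differentIdeal_iff.1 hPD) h2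
  -- `m < e n`
  have hlt : m < (Ideal.span {(p : ℤ)}).ramificationIdxIn (𝓞 L) * n := by
    by_contra hge
    rw [not_lt] at hge
    have h1 : differentIdeal ℤ (𝓞 L) ≤
        P ^ ((Ideal.span {(p : ℤ)}).ramificationIdxIn (𝓞 L) * n) :=
      Ideal.dvd_iff_le.1 ((pow_dvd_pow P hge).trans hm)
    have h2 := different_le_span_pow_of_le_pow L hp P n h1
    have h3 := dvd_finrank_of_different_le_span L (p ^ n) (pow_ne_zero _ hp.ne_zero) h2
    exact not_prime_pow_dvd_self hp hn0 h3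
  -- `P ^ m ∣ P ^ (e n) ∣ (p ^ n) ∣ (N)`
  have h4 : P ^ (P.ramificationIdx ℤ * n) ∣ Ideal.span {((p ^ n : ℕ) : 𝓞 L)} := by
    have hmap : Ideal.map (algebraMap ℤ (𝓞 L)) (Ideal.span {(p : ℤ)}) =
        Ideal.span {(p : 𝓞 L)} := by
      rw [Ideal.map_span, Set.image_singleton]
      simp
    have h5 : Ideal.span {((p ^ n : ℕ) : 𝓞 L)} = Ideal.span {(p : 𝓞 L)} ^ n := by
      rw [Ideal.span_singleton_pow]
      push_cast
      rfl
    rw [h5, pow_mul]
    refine pow_dvd_pow_of_dvd ?_ n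
    rw [← hmap, Ideal.dvd_iff_le]
    have hp0 : Ideal.span {(p : ℤ)} ≠ ⊥ := by
      rw [Ne, Ideal.span_singleton_eq_bot]
      exact_mod_cast hp.ne_zero
    have h7 := Ideal.le_pow_ramificationIdx' (p := Ideal.span {(p : ℤ)}) (P := P)
    rwa [Ideal.ramificationIdx'_eq_ramificationIdx (Ideal.span {(p : ℤ)}) P hp0] at h7
  have h6 : Ideal.span {((p ^ n : ℕ) : 𝓞 L)} ∣
      Ideal.span {((∏ p ∈ S.filter Nat.Prime, p ^ n : ℕ) : 𝓞 L)} := by
    rw [Ideal.dvd_iff_le, Ideal.span_singleton_le_span_singleton]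
    have hmem : p ∈ S.filter Nat.Prime := Finset.mem_filter.2 ⟨hpS, hp⟩
    obtain ⟨c, hc⟩ := Finset.dvd_prod_of_mem (fun p => p ^ n) hmem
    exact ⟨(c : 𝓞 L), by rw [hc]; push_cast; rfl⟩
  rw [he] at hlt
  exact ((pow_dvd_pow P hlt.le).trans h4).trans h6

/-- **Crude discriminant bound for Galois number fields.**  If every prime `q ∉ S` has
ramification index `1` in the Galois number field `L` of degree `n`, then
`|disc L| ∣ (∏_{p ∈ S prime} p ^ n) ^ n`. -/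
theorem natAbs_discr_dvd_of_unramified_outside (S : Finset ℕ)
    (hur : ∀ q : ℕ, q.Prime → q ∉ S →
      (Ideal.span {(q : ℤ)}).ramificationIdxIn (𝓞 L) = 1) :
    (discr L).natAbs ∣
      (∏ p ∈ S.filter Nat.Prime, p ^ Module.finrank ℚ L) ^ Module.finrank ℚ L := by
  have h1 := differentIdeal_dvd_span_of_unramified_outside L S hur
  have h2 := Ideal.absNorm_dvd_absNorm_of_le (Ideal.dvd_iff_le.1 h1)
  rwa [absNorm_differentIdeal L (𝓞 L), Ideal.absNorm_span_natCast,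
    RingOfIntegers.rank] at h2

end Galois

end Different

end Fermat.Agent.S17.H497
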