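import Fermat.Agent.S17.H497.Kronecker

/-!
# S17 / H piece P1 (helper497), part 2: Gauss' lemma and Gelfond's inequality for
multivariate polynomials

`mvSup v f` : the maximum of `v` over the coefficients of `f : MvPolynomial σ K`.

* `mvSup_eq_gaussNorm_kron` : `mvSup v f = gaussNorm v 1 (kron B f)` for `B`-bounded `f`.
* (NA) `mvSup_mul_of_isNonarchimedean`, `mvSup_prod_of_isNonarchimedean` : Gauss' lemma,
  `mvSup v (∏ f i) = ∏ mvSup v (f i)` for a nonarchimedean absolute value `v`.
* (AR) `prod_mvSup_le_of_complex` / `mvSup_prod_le_of_complex` : Gelfond's inequality and its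
  converse over `ℂ`: `4 ^ (-(B ^ n)) ∏ mvSup (f i) ≤ mvSup (∏ f i) ≤ 4 ^ (B ^ n) ∏ mvSup (f i)`
  whenever all exponents of the product are `< B`; `_of_embedding` versions for an absolute
  value `v = ‖φ ·‖`, `φ : K →+* ℂ`.
-/

set_option autoImplicit false

open Polynomial

namespace Fermat.Agent.S17.H497

section Def

variable {K : Type*} [CommRing K] {σ : Type*}

/-- The maximum of `v` over the coefficients of `f` (`0` for `f = 0`). -/
noncomputable def mvSup (v : K → ℝ) (f : MvPolynomial σ K) : ℝ :=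
  if h : f.support.Nonempty then f.support.sup' h (fun m => v (f.coeff m)) else 0

@[simp] theorem mvSup_zero (v : K → ℝ) : mvSup v (0 : MvPolynomial σ K) = 0 := by
  simp [mvSup]

theorem exists_eq_mvSup (v : K → ℝ) (hv0 : v 0 = 0) (f : MvPolynomial σ K) :
    ∃ m, mvSup v f = v (f.coeff m) := by
  unfold mvSup
  split_ifs with h
  · obtain ⟨m, -, hm⟩ := Finset.exists_mem_eq_sup' h (fun m => v (f.coeff m))
    exact ⟨m, hm⟩
  · exact ⟨0, by
      have : f = 0 := by
        rw [← MvPolynomial.support_eq_empty]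
        exact Finset.not_nonempty_iff_eq_empty.1 h
      simp [this, hv0]⟩

theorem mvSup_nonneg (v : K → ℝ) (hnn : ∀ x, 0 ≤ v x) (f : MvPolynomial σ K) :
    0 ≤ mvSup v f := by
  unfold mvSup
  split_ifs with h
  · obtain ⟨m, hm⟩ := h
    exact (hnn _).trans (Finset.le_sup' (fun m => v (f.coeff m)) hm)
  · exact le_rfl

theorem le_mvSup (v : K → ℝ) (hv0 : v 0 = 0) (hnn : ∀ x, 0 ≤ v x) (f : MvPolynomial σ K)
    (m : σ →₀ ℕ) : v (f.coeff m) ≤ mvSup v f := by
  by_cases hm : m ∈ f.support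
  · unfold mvSup
    rw [dif_pos ⟨m, hm⟩]
    exact Finset.le_sup' (fun m => v (f.coeff m)) hm
  · rw [MvPolynomial.notMem_support_iff.1 hm, hv0]
    exact mvSup_nonneg v hnn f

theorem mvSup_le (v : K → ℝ) (f : MvPolynomial σ K) {c : ℝ} (hc : 0 ≤ c)
    (h : ∀ m, v (f.coeff m) ≤ c) : mvSup v f ≤ c := by
  unfold mvSup
  split_ifs with hne
  · exact Finset.sup'_le hne _ fun m _ => h m
  · exact hc

end Def

section Kron

variable {K : Type*} [CommRing K] {n : ℕ} {F : Type*} [FunLike F K ℝ] [ZeroHomClass F K ℝ]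
  [NonnegHomClass F K ℝ]

/-- The sup norm of a bounded polynomial is the Gauss norm of its Kronecker substitution. -/
theorem mvSup_eq_gaussNorm_kron (v : F) {B : ℕ} {f : MvPolynomial (Fin n) K}
    (hf : IsBdd B f) : mvSup (fun x => v x) f = (kron B f).gaussNorm v 1 := by
  have hv0 : (fun x => v x) (0 : K) = 0 := map_zero v
  have hnn : ∀ x : K, 0 ≤ (fun x => v x) x := fun x => apply_nonneg v x
  apply le_antisymm
  · obtain ⟨m, hm⟩ := exists_eq_mvSup (fun x => v x) hv0 f
    rw [hm]
    by_cases hms : m ∈ f.support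
    · have := (kron B f).le_gaussNorm v (c := 1) zero_le_one (kronWeight B m)
      rwa [one_pow, mul_one, coeff_kron_weight hf m (hf m hms)] at this
    · rw [MvPolynomial.notMem_support_iff.1 hms]
      show v 0 ≤ _
      rw [map_zero]
      exact Polynomial.gaussNorm_nonneg v _ zero_le_one
  · obtain ⟨k, hk⟩ := (kron B f).exists_eq_gaussNorm v 1
    rw [hk, one_pow, mul_one]
    by_cases h0 : (kron B f).coeff k = 0
    · rw [h0, map_zero]
      exact mvSup_nonneg _ hnn f
    · obtain ⟨m, -, -, hm⟩ := exists_of_coeff_kron_ne_zero hf h0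
      rw [hm]
      exact le_mvSup _ hv0 hnn f m

end Kron

section Bdd

variable {K : Type*} [CommRing K] {n : ℕ}

theorem isBdd_of_totalDegree_lt {B : ℕ} {f : MvPolynomial (Fin n) K}
    (h : f.totalDegree < B) : IsBdd B f := by
  intro m hm j
  have h1 : m j ≤ MvPolynomial.degreeOf j f := MvPolynomial.monomial_le_degreeOf j hm
  have h2 : MvPolynomial.degreeOf j f ≤ f.totalDegree := MvPolynomial.degreeOf_le_totalDegree f j
  omega

theorem IsBdd.mono {B B' : ℕ} (h : B ≤ B') {f : MvPolynomial (Fin n) K} (hf : IsBdd B f) :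
    IsBdd B' f := fun m hm j => (hf m hm j).trans_le h

end Bdd

section NA

variable {K : Type*} [CommRing K] {n : ℕ}

/-- **Gauss' lemma** for multivariate polynomials: the sup norm of the coefficients with respect
to a nonarchimedean absolute value is multiplicative. -/
theorem mvSup_mul_of_isNonarchimedean (v : AbsoluteValue K ℝ) (hna : IsNonarchimedean v)
    (f g : MvPolynomial (Fin n) K) : mvSup v (f * g) = mvSup v f * mvSup v g := by
  set B := f.totalDegree + g.totalDegree + 1 with hB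
  have hf : IsBdd B f := isBdd_of_totalDegree_lt (by omega)
  have hg : IsBdd B g := isBdd_of_totalDegree_lt (by omega)
  have hfg : IsBdd B (f * g) := isBdd_of_totalDegree_lt (by
    have := MvPolynomial.totalDegree_mul f g
    omega)
  have e1 := mvSup_eq_gaussNorm_kron v hf
  have e2 := mvSup_eq_gaussNorm_kron v hg
  have e3 := mvSup_eq_gaussNorm_kron v hfg
  rw [map_mul, Polynomial.gaussNorm_mul hna one_pos] at e3
  exact e3.trans (by rw [← e1, ← e2])

/-- **Gauss' lemma**, product form. -/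
theorem mvSup_prod_of_isNonarchimedean [Nontrivial K] (v : AbsoluteValue K ℝ)
    (hna : IsNonarchimedean v) {ι : Type*} (s : Finset ι) (f : ι → MvPolynomial (Fin n) K) :
    mvSup v (∏ i ∈ s, f i) = ∏ i ∈ s, mvSup v (f i) := by
  classical
  induction s using Finset.induction_on with
  | empty =>
    simp only [Finset.prod_empty]
    obtain ⟨m, hm⟩ := exists_eq_mvSup (σ := Fin n) v (map_zero v) (1 : MvPolynomial (Fin n) K)
    apply le_antisymm
    · refine mvSup_le v _ zero_le_one fun m => ?_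
      rw [MvPolynomial.coeff_one]
      split_ifs
      · exact (map_one v).le
      · rw [map_zero]; exact zero_le_one
    · have := le_mvSup (σ := Fin n) v (map_zero v) (fun x => v.nonneg x)
        (1 : MvPolynomial (Fin n) K) 0
      rwa [MvPolynomial.coeff_zero_one, map_one] at this
  | insert a s ha ih =>
    rw [Finset.prod_insert ha, Finset.prod_insert ha, mvSup_mul_of_isNonarchimedean v hna, ih]

end NA

section OneVar

variable {ι : Type*}

theorem mahlerMeasure_finset_prod (s : Finset ι) (p : ι → ℂ[X]) :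
    (∏ i ∈ s, p i).mahlerMeasure = ∏ i ∈ s, (p i).mahlerMeasure := by
  classical
  induction s using Finset.induction_on with
  | empty => simp
  | insert a s ha ih => rw [Finset.prod_insert ha, Finset.prod_insert ha, mahlerMeasure_mul, ih]

theorem sqrt_natCast_add_one_le_two_pow (D : ℕ) : √((D : ℝ) + 1) ≤ 2 ^ D := by
  have h1 : ((D : ℝ) + 1) ≤ 2 ^ D := by
    have := Nat.lt_two_pow_self (n := D)
    exact_mod_cast this
  have h2 : √((D : ℝ) + 1) ≤ (D : ℝ) + 1 := by
    rw [Real.sqrt_le_left (by positivity)]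
    nlinarith [Nat.cast_nonneg (α := ℝ) D]
  exact h2.trans h1

theorem supNorm_le_two_pow_mul_mahlerMeasure (p : ℂ[X]) :
    p.supNorm ≤ 2 ^ p.natDegree * p.mahlerMeasure := by
  refine (supNorm_le_choose_natDegree_div_two_mul_mahlerMeasure p).trans ?_
  refine mul_le_mul_of_nonneg_right ?_ p.mahlerMeasure_nonneg
  exact_mod_cast Nat.choose_le_two_pow _ _

theorem mahlerMeasure_le_two_pow_mul_supNorm (p : ℂ[X]) :
    p.mahlerMeasure ≤ 2 ^ p.natDegree * p.supNorm :=
  (mahlerMeasure_le_sqrt_natDegree_add_one_mul_supNorm p).trans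
    (mul_le_mul_of_nonneg_right (sqrt_natCast_add_one_le_two_pow _) p.supNorm_nonneg)

/-- **Gelfond's inequality** in one variable. -/
theorem prod_supNorm_le (s : Finset ι) (p : ι → ℂ[X]) :
    ∏ i ∈ s, (p i).supNorm ≤
      4 ^ (∏ i ∈ s, p i).natDegree * (∏ i ∈ s, p i).supNorm := by
  classical
  by_cases h0 : ∃ i ∈ s, p i = 0
  · obtain ⟨i, hi, hpi⟩ := h0
    rw [Finset.prod_eq_zero hi (by rw [hpi, supNorm_zero])]
    exact mul_nonneg (by positivity) (supNorm_nonneg _)
  push Not at h0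
  set P := ∏ i ∈ s, p i with hP
  have hD : P.natDegree = ∑ i ∈ s, (p i).natDegree := natDegree_prod s p h0
  calc ∏ i ∈ s, (p i).supNorm
      ≤ ∏ i ∈ s, (2 ^ (p i).natDegree * (p i).mahlerMeasure) :=
        Finset.prod_le_prod (fun i _ => supNorm_nonneg _)
          (fun i _ => supNorm_le_two_pow_mul_mahlerMeasure _)
    _ = 2 ^ P.natDegree * P.mahlerMeasure := by
        rw [Finset.prod_mul_distrib, Finset.prod_pow_eq_pow_sum, ← hD,
          ← mahlerMeasure_finset_prod]
    _ ≤ 2 ^ P.natDegree * (2 ^ P.natDegree * P.supNorm) :=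
        mul_le_mul_of_nonneg_left (mahlerMeasure_le_two_pow_mul_supNorm P) (by positivity)
    _ = 4 ^ P.natDegree * P.supNorm := by
        rw [← mul_assoc, ← mul_pow]; norm_num

/-- The converse of Gelfond's inequality in one variable. -/
theorem supNorm_prod_le (s : Finset ι) (p : ι → ℂ[X]) :
    (∏ i ∈ s, p i).supNorm ≤
      4 ^ (∏ i ∈ s, p i).natDegree * ∏ i ∈ s, (p i).supNorm := by
  classical
  by_cases h0 : ∃ i ∈ s, p i = 0
  · obtain ⟨i, hi, hpi⟩ := h0
    rw [Finset.prod_eq_zero hi hpi, supNorm_zero]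
    exact mul_nonneg (by positivity) (Finset.prod_nonneg fun i _ => supNorm_nonneg _)
  push Not at h0
  set P := ∏ i ∈ s, p i with hP
  have hD : P.natDegree = ∑ i ∈ s, (p i).natDegree := natDegree_prod s p h0
  calc P.supNorm ≤ 2 ^ P.natDegree * P.mahlerMeasure := supNorm_le_two_pow_mul_mahlerMeasure P
    _ = 2 ^ P.natDegree * ∏ i ∈ s, (p i).mahlerMeasure := by rw [mahlerMeasure_finset_prod]
    _ ≤ 2 ^ P.natDegree * ∏ i ∈ s, (2 ^ (p i).natDegree * (p i).supNorm) := by
        refine mul_le_mul_of_nonneg_left ?_ (by positivity)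
        exact Finset.prod_le_prod (fun i _ => mahlerMeasure_nonneg _)
          (fun i _ => mahlerMeasure_le_two_pow_mul_supNorm _)
    _ = 4 ^ P.natDegree * ∏ i ∈ s, (p i).supNorm := by
        rw [Finset.prod_mul_distrib, Finset.prod_pow_eq_pow_sum, ← hD, ← mul_assoc, ← mul_pow]
        norm_num

end OneVar

section MvComplex

variable {n : ℕ} {ι : Type*}

theorem supNorm_kron {B : ℕ} {f : MvPolynomial (Fin n) ℂ} (hf : IsBdd B f) :
    (kron B f).supNorm = mvSup (fun x : ℂ => ‖x‖) f :=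
  (mvSup_eq_gaussNorm_kron (SeminormedRing.toRingSeminorm ℂ) hf).symm

/-- **Gelfond's inequality** for multivariate complex polynomials, bounded form: if all
exponents of the `f i` and of their product are `< B` then
`∏ ‖f i‖ ≤ 4 ^ (B ^ n) * ‖∏ f i‖` (sup norms of the coefficients). -/
theorem prod_mvSup_le_of_isBdd {B : ℕ} (hB : 0 < B) (s : Finset ι)
    (f : ι → MvPolynomial (Fin n) ℂ)
    (hf : ∀ i ∈ s, IsBdd B (f i)) (hP : IsBdd B (∏ i ∈ s, f i)) :
    ∏ i ∈ s, mvSup (fun x : ℂ => ‖x‖) (f i) ≤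
      4 ^ (B ^ n) * mvSup (fun x : ℂ => ‖x‖) (∏ i ∈ s, f i) := by
  rw [← supNorm_kron hP, map_prod]
  have h1 : ∏ i ∈ s, mvSup (fun x : ℂ => ‖x‖) (f i) = ∏ i ∈ s, (kron B (f i)).supNorm :=
    Finset.prod_congr rfl fun i hi => (supNorm_kron (hf i hi)).symm
  rw [h1]
  refine (prod_supNorm_le s fun i => kron B (f i)).trans ?_
  refine mul_le_mul_of_nonneg_right ?_ (supNorm_nonneg _)
  refine pow_le_pow_right₀ (by norm_num) ?_
  rw [← map_prod]
  exact (natDegree_kron_lt hB hP).le

/-- Converse of Gelfond's inequality, bounded form. -/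
theorem mvSup_prod_le_of_isBdd {B : ℕ} (hB : 0 < B) (s : Finset ι)
    (f : ι → MvPolynomial (Fin n) ℂ)
    (hf : ∀ i ∈ s, IsBdd B (f i)) (hP : IsBdd B (∏ i ∈ s, f i)) :
    mvSup (fun x : ℂ => ‖x‖) (∏ i ∈ s, f i) ≤
      4 ^ (B ^ n) * ∏ i ∈ s, mvSup (fun x : ℂ => ‖x‖) (f i) := by
  rw [← supNorm_kron hP, map_prod]
  have h1 : ∏ i ∈ s, mvSup (fun x : ℂ => ‖x‖) (f i) = ∏ i ∈ s, (kron B (f i)).supNorm :=
    Finset.prod_congr rfl fun i hi => (supNorm_kron (hf i hi)).symm
  rw [h1]
  refine (supNorm_prod_le s fun i => kron B (f i)).trans ?_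
  refine mul_le_mul_of_nonneg_right ?_ (Finset.prod_nonneg fun i _ => supNorm_nonneg _)
  refine pow_le_pow_right₀ (by norm_num) ?_
  rw [← map_prod]
  exact (natDegree_kron_lt hB hP).le

theorem isBdd_family (s : Finset ι) (f : ι → MvPolynomial (Fin n) ℂ) :
    (∀ i ∈ s, IsBdd (∑ i ∈ s, (f i).totalDegree + 1) (f i)) ∧
      IsBdd (∑ i ∈ s, (f i).totalDegree + 1) (∏ i ∈ s, f i) := by
  constructor
  · intro i hi
    apply isBdd_of_totalDegree_lt
    have := Finset.single_le_sum (f := fun i => (f i).totalDegree) (fun _ _ => Nat.zero_le _) hi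
    exact Nat.lt_succ_of_le this
  · apply isBdd_of_totalDegree_lt
    exact Nat.lt_succ_of_le (MvPolynomial.totalDegree_finsetProd s f)

/-- **Gelfond's inequality** for multivariate complex polynomials: with `d = ∑ deg (f i)`,
`∏ ‖f i‖ ≤ 4 ^ ((d + 1) ^ n) * ‖∏ f i‖`. -/
theorem prod_mvSup_le_of_complex (s : Finset ι) (f : ι → MvPolynomial (Fin n) ℂ) :
    ∏ i ∈ s, mvSup (fun x : ℂ => ‖x‖) (f i) ≤
      4 ^ ((∑ i ∈ s, (f i).totalDegree + 1) ^ n) * mvSup (fun x : ℂ => ‖x‖) (∏ i ∈ s, f i) :=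
  prod_mvSup_le_of_isBdd (Nat.succ_pos _) s f (isBdd_family s f).1 (isBdd_family s f).2

/-- Converse of Gelfond's inequality for multivariate complex polynomials. -/
theorem mvSup_prod_le_of_complex (s : Finset ι) (f : ι → MvPolynomial (Fin n) ℂ) :
    mvSup (fun x : ℂ => ‖x‖) (∏ i ∈ s, f i) ≤
      4 ^ ((∑ i ∈ s, (f i).totalDegree + 1) ^ n) * ∏ i ∈ s, mvSup (fun x : ℂ => ‖x‖) (f i) :=
  mvSup_prod_le_of_isBdd (Nat.succ_pos _) s f (isBdd_family s f).1 (isBdd_family s f).2

end MvComplex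

section Embedding

variable {K : Type*} [CommRing K] {n : ℕ} {ι : Type*}

theorem mvSup_map (φ : K →+* ℂ) (f : MvPolynomial (Fin n) K) :
    mvSup (fun x : ℂ => ‖x‖) (MvPolynomial.map φ f) = mvSup (fun x : K => ‖φ x‖) f := by
  apply le_antisymm
  · obtain ⟨m, hm⟩ := exists_eq_mvSup (fun x : ℂ => ‖x‖) norm_zero (MvPolynomial.map φ f)
    rw [hm, MvPolynomial.coeff_map]
    exact le_mvSup (fun x : K => ‖φ x‖) (by simp) (fun x => norm_nonneg _) f m
  · obtain ⟨m, hm⟩ := exists_eq_mvSup (fun x : K => ‖φ x‖) (by simp) f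
    rw [hm, ← MvPolynomial.coeff_map]
    exact le_mvSup (fun x : ℂ => ‖x‖) norm_zero (fun x => norm_nonneg _) _ m

theorem IsBdd.map (φ : K →+* ℂ) {B : ℕ} {f : MvPolynomial (Fin n) K} (hf : IsBdd B f) :
    IsBdd B (MvPolynomial.map φ f) :=
  fun m hm j => hf m (MvPolynomial.support_map_subset φ f hm) j

theorem isBdd_family' (s : Finset ι) (f : ι → MvPolynomial (Fin n) K) :
    (∀ i ∈ s, IsBdd (∑ i ∈ s, (f i).totalDegree + 1) (f i)) ∧
      IsBdd (∑ i ∈ s, (f i).totalDegree + 1) (∏ i ∈ s, f i) := by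
  constructor
  · intro i hi
    apply isBdd_of_totalDegree_lt
    have := Finset.single_le_sum (f := fun i => (f i).totalDegree) (fun _ _ => Nat.zero_le _) hi
    exact Nat.lt_succ_of_le this
  · apply isBdd_of_totalDegree_lt
    exact Nat.lt_succ_of_le (MvPolynomial.totalDegree_finsetProd s f)

/-- **Gelfond's inequality** for an archimedean absolute value `‖φ ·‖`, `φ : K →+* ℂ`. -/
theorem prod_mvSup_le_of_embedding (φ : K →+* ℂ) (s : Finset ι)
    (f : ι → MvPolynomial (Fin n) K) :
    ∏ i ∈ s, mvSup (fun x : K => ‖φ x‖) (f i) ≤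
      4 ^ ((∑ i ∈ s, (f i).totalDegree + 1) ^ n) *
        mvSup (fun x : K => ‖φ x‖) (∏ i ∈ s, f i) := by
  have h := prod_mvSup_le_of_isBdd (Nat.succ_pos _) s (fun i => MvPolynomial.map φ (f i))
    (fun i hi => ((isBdd_family' s f).1 i hi).map φ)
    (by rw [← map_prod]; exact (isBdd_family' s f).2.map φ)
  rw [← map_prod, mvSup_map] at h
  rwa [Finset.prod_congr rfl fun i _ => mvSup_map φ (f i)] at h

/-- Converse of Gelfond's inequality for an archimedean absolute value `‖φ ·‖`. -/
theorem mvSup_prod_le_of_embedding (φ : K →+* ℂ) (s : Finset ι)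
    (f : ι → MvPolynomial (Fin n) K) :
    mvSup (fun x : K => ‖φ x‖) (∏ i ∈ s, f i) ≤
      4 ^ ((∑ i ∈ s, (f i).totalDegree + 1) ^ n) *
        ∏ i ∈ s, mvSup (fun x : K => ‖φ x‖) (f i) := by
  have h := mvSup_prod_le_of_isBdd (Nat.succ_pos _) s (fun i => MvPolynomial.map φ (f i))
    (fun i hi => ((isBdd_family' s f).1 i hi).map φ)
    (by rw [← map_prod]; exact (isBdd_family' s f).2.map φ)
  rw [← map_prod, mvSup_map] at h
  rwa [Finset.prod_congr rfl fun i _ => mvSup_map φ (f i)] at h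

end Embedding

section LinearForms

variable {K : Type*} [CommRing K] {n : ℕ} {ι : Type*}

/-- The linear form `⟨x, T⟩ = ∑ j, x j * T_j`. -/
noncomputable def linForm (x : Fin n → K) : MvPolynomial (Fin n) K :=
  ∑ j, MvPolynomial.C (x j) * MvPolynomial.X j

theorem coeff_linForm (x : Fin n → K) (m : Fin n →₀ ℕ) :
    (linForm x).coeff m = ∑ j, if Finsupp.single j 1 = m then x j else 0 := by
  classical
  unfold linForm
  rw [MvPolynomial.coeff_sum]
  refine Finset.sum_congr rfl fun j _ => ?_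
  rw [MvPolynomial.coeff_C_mul, MvPolynomial.coeff_X]
  split_ifs <;> simp

theorem coeff_linForm_single (x : Fin n → K) (j : Fin n) :
    (linForm x).coeff (Finsupp.single j 1) = x j := by
  classical
  rw [coeff_linForm, Finset.sum_eq_single j]
  · simp
  · intro i _ hij
    rw [if_neg]
    intro h
    apply hij
    have := congrArg (fun f : Fin n →₀ ℕ => f j) h
    simp only [Finsupp.single_apply] at this
    by_contra hne
    rw [if_neg hne] at this
    simp at this
  · intro h; exact absurd (Finset.mem_univ j) h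

theorem coeff_linForm_eq_zero_or (x : Fin n → K) (m : Fin n →₀ ℕ) :
    (linForm x).coeff m = 0 ∨ ∃ j, (linForm x).coeff m = x j := by
  classical
  by_cases h : ∃ j, Finsupp.single j 1 = m
  · obtain ⟨j, rfl⟩ := h
    exact Or.inr ⟨j, coeff_linForm_single x j⟩
  · left
    rw [coeff_linForm]
    refine Finset.sum_eq_zero fun j _ => ?_
    rw [if_neg]
    exact fun hj => h ⟨j, hj⟩

theorem totalDegree_linForm_le (x : Fin n → K) : (linForm x).totalDegree ≤ 1 := by
  unfold linForm
  refine (MvPolynomial.totalDegree_finsetSum _ _).trans ?_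
  refine Finset.sup_le fun j _ => ?_
  have h1 : MvPolynomial.C (x j) * MvPolynomial.X j =
      MvPolynomial.monomial (Finsupp.single j 1) (x j) := by
    rw [MvPolynomial.X, MvPolynomial.C_mul_monomial, mul_one]
  rw [h1]
  refine (MvPolynomial.totalDegree_monomial_le _ _).trans ?_
  simp

/-- The sup norm of a linear form is the sup norm of its coefficient vector. -/
theorem mvSup_linForm (v : K → ℝ) (hv0 : v 0 = 0) (hnn : ∀ x, 0 ≤ v x)
    (x : Fin (n + 1) → K) : mvSup v (linForm x) = ⨆ j, v (x j) := by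
  have hbdd : BddAbove (Set.range fun j => v (x j)) := Set.finite_range _ |>.bddAbove
  apply le_antisymm
  · obtain ⟨m, hm⟩ := exists_eq_mvSup v hv0 (linForm x)
    rw [hm]
    rcases coeff_linForm_eq_zero_or x m with h | ⟨j, hj⟩
    · rw [h, hv0]
      exact (hnn (x 0)).trans (le_ciSup hbdd 0)
    · rw [hj]
      exact le_ciSup hbdd j
  · refine ciSup_le fun j => ?_
    rw [← coeff_linForm_single x j]
    exact le_mvSup v hv0 hnn _ _

theorem sum_totalDegree_linForm_le (s : Finset ι) (x : ι → Fin n → K) :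
    ∑ i ∈ s, (linForm (x i)).totalDegree ≤ s.card := by
  calc ∑ i ∈ s, (linForm (x i)).totalDegree ≤ ∑ _i ∈ s, 1 :=
        Finset.sum_le_sum fun i _ => totalDegree_linForm_le (x i)
    _ = s.card := by simp

/-- **(P1, nonarchimedean)**: Gauss' lemma for a product of linear forms. -/
theorem mvSup_prod_linForm_of_isNonarchimedean [Nontrivial K] (v : AbsoluteValue K ℝ)
    (hna : IsNonarchimedean v) (s : Finset ι) (x : ι → Fin (n + 1) → K) :
    mvSup v (∏ i ∈ s, linForm (x i)) = ∏ i ∈ s, ⨆ j, v (x i j) := by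
  rw [mvSup_prod_of_isNonarchimedean v hna]
  exact Finset.prod_congr rfl fun i _ =>
    mvSup_linForm v (map_zero v) (fun a => v.nonneg a) (x i)

/-- **(P1, archimedean, lower bound)**: Gelfond's inequality for a product of `m` linear forms
in `n + 1` variables, with respect to `‖φ ·‖`, `φ : K →+* ℂ`. -/
theorem prod_iSup_le_mvSup_prod_linForm (φ : K →+* ℂ) (s : Finset ι)
    (x : ι → Fin (n + 1) → K) :
    ∏ i ∈ s, ⨆ j, ‖φ (x i j)‖ ≤
      4 ^ ((s.card + 1) ^ (n + 1)) * mvSup (fun a : K => ‖φ a‖) (∏ i ∈ s, linForm (x i)) := by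
  have h := prod_mvSup_le_of_embedding φ s (fun i => linForm (x i))
  rw [Finset.prod_congr rfl fun i _ =>
    mvSup_linForm (fun a : K => ‖φ a‖) (by simp) (fun a => norm_nonneg _) (x i)] at h
  refine h.trans ?_
  refine mul_le_mul_of_nonneg_right ?_ (mvSup_nonneg _ (fun a => norm_nonneg _) _)
  refine pow_le_pow_right₀ (by norm_num) ?_
  exact Nat.pow_le_pow_left (Nat.succ_le_succ (sum_totalDegree_linForm_le s x)) _

/-- **(P1, archimedean, upper bound)**. -/
theorem mvSup_prod_linForm_le_prod_iSup (φ : K →+* ℂ) (s : Finset ι)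
    (x : ι → Fin (n + 1) → K) :
    mvSup (fun a : K => ‖φ a‖) (∏ i ∈ s, linForm (x i)) ≤
      4 ^ ((s.card + 1) ^ (n + 1)) * ∏ i ∈ s, ⨆ j, ‖φ (x i j)‖ := by
  have h := mvSup_prod_le_of_embedding φ s (fun i => linForm (x i))
  rw [Finset.prod_congr rfl fun i _ =>
    mvSup_linForm (fun a : K => ‖φ a‖) (by simp) (fun a => norm_nonneg _) (x i)] at h
  refine h.trans ?_
  refine mul_le_mul_of_nonneg_right ?_ (Finset.prod_nonneg fun i _ =>
    Real.iSup_nonneg fun j => norm_nonneg _)
  refine pow_le_pow_right₀ (by norm_num) ?_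
  exact Nat.pow_le_pow_left (Nat.succ_le_succ (sum_totalDegree_linForm_le s x)) _

end LinearForms

end Fermat.Agent.S17.H497
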