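import Mathlib

/-!
# S17 / H piece P1 (helper497), part 1: Kronecker substitution

`kron B : MvPolynomial (Fin n) R →ₐ[R] R[X]`, `X_j ↦ X ^ (B ^ j)`.  On polynomials all of whose
exponents are `< B` it is a bijection between coefficients:

* `kronWeight_injOn` : `m ↦ ∑ j, m j * B ^ j` is injective on exponent vectors with entries `< B`;
* `coeff_kron_weight` : `(kron B f).coeff (kronWeight B m) = f.coeff m` (`f`, `m` bounded by `B`);
* `exists_of_coeff_kron_ne_zero` : every nonzero coefficient of `kron B f` is a coefficient of `f`;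
* `natDegree_kron_lt` : `natDegree (kron B f) < B ^ n`.
-/

set_option autoImplicit false

open Polynomial

namespace Fermat.Agent.S17.H497

section Weight

/-- The Kronecker weight `∑ j, m j * B ^ j` of an exponent vector. -/
def kronWeight (B : ℕ) {n : ℕ} (m : Fin n → ℕ) : ℕ := ∑ j : Fin n, m j * B ^ (j : ℕ)

theorem kronWeight_succ (B : ℕ) {n : ℕ} (m : Fin (n + 1) → ℕ) :
    kronWeight B m = m 0 + B * kronWeight B (fun j : Fin n => m j.succ) := by
  unfold kronWeight
  rw [Fin.sum_univ_succ, Finset.mul_sum]
  simp only [Fin.val_zero, pow_zero, mul_one, Fin.val_succ, pow_succ]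
  congr 1
  refine Finset.sum_congr rfl fun j _ => ?_
  ring

/-- Uniqueness of base-`B` expansions. -/
theorem kronWeight_inj {B : ℕ} : ∀ {n : ℕ} {m m' : Fin n → ℕ},
    (∀ j, m j < B) → (∀ j, m' j < B) → kronWeight B m = kronWeight B m' → m = m'
  | 0, m, m', _, _, _ => by
      funext j; exact j.elim0
  | n + 1, m, m', hm, hm', h => by
      rw [kronWeight_succ, kronWeight_succ] at h
      have hB : 0 < B := lt_of_le_of_lt (Nat.zero_le _) (hm 0)
      have h0 : m 0 = m' 0 := by
        have h1 := congrArg (· % B) h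
        simp only [Nat.add_mul_mod_self_left] at h1
        rwa [Nat.mod_eq_of_lt (hm 0), Nat.mod_eq_of_lt (hm' 0)] at h1
      have h2 : kronWeight B (fun j : Fin n => m j.succ) =
          kronWeight B (fun j : Fin n => m' j.succ) := by
        rw [h0] at h
        exact Nat.eq_of_mul_eq_mul_left hB (Nat.add_left_cancel h)
      have h3 := kronWeight_inj (fun j => hm j.succ) (fun j => hm' j.succ) h2
      funext j
      refine Fin.cases h0 (fun i => ?_) j
      exact congrFun h3 i

/-- The Kronecker weight of a bounded exponent vector is `< B ^ n`. -/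
theorem kronWeight_lt {B : ℕ} : ∀ {n : ℕ} {m : Fin n → ℕ},
    (∀ j, m j < B) → kronWeight B m < B ^ n
  | 0, m, _ => by simp [kronWeight]
  | n + 1, m, hm => by
      rw [kronWeight_succ]
      have h1 := kronWeight_lt (m := fun j : Fin n => m j.succ) (fun j => hm j.succ)
      have h2 := hm 0
      calc m 0 + B * kronWeight B (fun j : Fin n => m j.succ)
          < B + B * kronWeight B (fun j : Fin n => m j.succ) := by omega
        _ = B * (kronWeight B (fun j : Fin n => m j.succ) + 1) := by ring
        _ ≤ B * B ^ n := Nat.mul_le_mul_left _ h1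
        _ = B ^ (n + 1) := by ring

end Weight

section Kron

variable {R : Type*} [CommRing R] {n : ℕ}

/-- The Kronecker substitution `X_j ↦ X ^ (B ^ j)`. -/
noncomputable def kron (B : ℕ) : MvPolynomial (Fin n) R →ₐ[R] R[X] :=
  MvPolynomial.aeval (fun j : Fin n => (X : R[X]) ^ (B ^ (j : ℕ)))

theorem kron_monomial (B : ℕ) (m : Fin n →₀ ℕ) (c : R) :
    kron B (MvPolynomial.monomial m c) = Polynomial.monomial (kronWeight B m) c := by
  unfold kron
  rw [MvPolynomial.aeval_monomial, Finsupp.prod_fintype _ _ (fun i => by simp)]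
  simp only [← pow_mul, Finset.prod_pow_eq_pow_sum]
  rw [← Polynomial.C_mul_X_pow_eq_monomial]
  congr 2
  unfold kronWeight
  refine Finset.sum_congr rfl fun j _ => ?_
  ring

/-- A polynomial is `B`-bounded if all exponents of all its monomials are `< B`. -/
def IsBdd (B : ℕ) (f : MvPolynomial (Fin n) R) : Prop :=
  ∀ m ∈ f.support, ∀ j, m j < B

theorem kron_eq_sum (B : ℕ) (f : MvPolynomial (Fin n) R) :
    kron B f = ∑ m ∈ f.support, Polynomial.monomial (kronWeight B m) (f.coeff m) := by
  conv_lhs => rw [f.as_sum]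
  rw [map_sum]
  exact Finset.sum_congr rfl fun m _ => kron_monomial B m _

/-- Coefficients of the Kronecker substitution at weights of bounded exponent vectors. -/
theorem coeff_kron_weight {B : ℕ} {f : MvPolynomial (Fin n) R} (hf : IsBdd B f)
    (m : Fin n →₀ ℕ) (hm : ∀ j, m j < B) :
    (kron B f).coeff (kronWeight B m) = f.coeff m := by
  classical
  rw [kron_eq_sum, Polynomial.finsetSum_coeff]
  simp only [Polynomial.coeff_monomial]
  have key : ∀ m' ∈ f.support, (kronWeight B (m' : Fin n → ℕ) = kronWeight B (m : Fin n → ℕ)) ↔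
      m' = m := by
    intro m' hm'
    constructor
    · intro h
      exact DFunLike.coe_injective (kronWeight_inj (hf m' hm') hm h)
    · rintro rfl; rfl
  rw [Finset.sum_congr rfl (fun m' hm' => by rw [if_congr (key m' hm') rfl rfl])]
  rw [Finset.sum_ite_eq' f.support m]
  split_ifs with h
  · rfl
  · exact (MvPolynomial.notMem_support_iff.1 h).symm

/-- Every nonzero coefficient of the Kronecker substitution is a coefficient of `f`. -/
theorem exists_of_coeff_kron_ne_zero {B : ℕ} {f : MvPolynomial (Fin n) R} (hf : IsBdd B f)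
    {k : ℕ} (hk : (kron B f).coeff k ≠ 0) :
    ∃ m ∈ f.support, kronWeight B (m : Fin n → ℕ) = k ∧ (kron B f).coeff k = f.coeff m := by
  classical
  have h1 : ∃ m ∈ f.support, kronWeight B (m : Fin n → ℕ) = k := by
    by_contra hcon
    push Not at hcon
    apply hk
    rw [kron_eq_sum, Polynomial.finsetSum_coeff]
    refine Finset.sum_eq_zero fun m hm => ?_
    rw [Polynomial.coeff_monomial, if_neg (hcon m hm)]
  obtain ⟨m, hm, rfl⟩ := h1
  exact ⟨m, hm, rfl, coeff_kron_weight hf m (hf m hm)⟩

theorem natDegree_kron_lt {B : ℕ} (hB : 0 < B) {f : MvPolynomial (Fin n) R} (hf : IsBdd B f) :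
    (kron B f).natDegree < B ^ n := by
  by_cases h0 : kron B f = 0
  · rw [h0, Polynomial.natDegree_zero]
    exact pow_pos hB n
  have hlc : (kron B f).coeff (kron B f).natDegree ≠ 0 := by
    rw [Polynomial.coeff_natDegree]
    exact Polynomial.leadingCoeff_ne_zero.2 h0
  obtain ⟨m, hm, hw, -⟩ := exists_of_coeff_kron_ne_zero hf hlc
  rw [← hw]
  exact kronWeight_lt (hf m hm)

theorem kron_eq_zero_iff {B : ℕ} {f : MvPolynomial (Fin n) R} (hf : IsBdd B f) :
    kron B f = 0 ↔ f = 0 := by
  constructor
  · intro h
    ext m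
    by_cases hm : m ∈ f.support
    · rw [← coeff_kron_weight hf m (hf m hm), h]
      simp
    · rw [MvPolynomial.notMem_support_iff.1 hm]
      simp
  · rintro rfl
    exact map_zero _

end Kron

end Fermat.Agent.S17.H497
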