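import Fermat.Agent.S17.H17.HGauss
import Fermat.Agent.S17.H35.ContractPkg
import Fermat.Agent.S17.H500.TopGlue
import Fermat.Agent.Lib.RR.H80.Res.LocalDiff

/-!
# S17 / tower H — bridge RT-DATA (helper497): `GAUSSCanStatement E ⟹ GaussPlusStatement F₀ E`

TOP needs (GAUSS) at a canonical divisor of the shape `K₀ = Rt − c ∞` with `Rt ≥ 0`
GALOIS-INVARIANT and prime to `∞`.  The GAUSS sub-project delivers `HContract.GAUSSCanStatement E`
((GAUSS) at `div ω` for every Kähler differential `ω ≠ 0`).  Here is the bridge: for a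
non-constant function `t ∈ L(m ∞)` (poles at `∞` only) take `ω = dt`, `W = div(dt)`,
`c = − W(∞) ≥ 2`, `Rt = W + c ∞`.

Abstract part (`K` algebraically closed of characteristic `0`, `[FF1 K F]`):

* `exists_const_ord_sub_ne_zero497` : at every place some `t − const` has nonzero order;
* `D_ne_zero_of_ord_neg497`         : `dt ≠ 0` if `t` has a pole;
* `ordDifferential_D_smul497`       : `div(dt)` is invariant under a semilinear automorphism
                                      fixing `t`;
* `exists_rt497`                    : the data `W`, `Rt`, `c` with all their properties.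

Galois part (`F = laurentBaseChange ℚ̄ F₀`):

* `isInvariant_divD497`     : `div(dt)` is Galois-invariant for a Galois-fixed `t`;
* `exists_rtData497`        : `Rt ≥ 0` invariant, `Rt(∞) = 0`, `deg Rt = 2g − 2 + c`, `2 ≤ c`, and
                              `GaussRtStatement E Rt c` (the input of `H35.gauss_sum`/`H35.gauss`);
* `exists_rtData_deg497`    : the same with `c` replaced by `deg Rt − (2g − 2)`
                              (shape of `H736.TopInput` + `H35.gauss`);
* `gaussPlus_of_gaussCan497`: `GAUSSCanStatement E → H500.Top.GaussPlusStatement F₀ E`;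
* `gaussPlus_of_gaussCan_x497` : the same with `t` found among the (fixed) basis `E.x`.
-/

set_option autoImplicit false

noncomputable section

open AlgebraicCurve KaehlerDifferential

namespace Fermat.Agent.S17.H497

open Fermat.Agent.Lib.RR Fermat.Agent.S17.HWall Fermat.Agent.S17.HContract

section Abstract

variable {K F : Type*} [Field K] [Field F] [Algebra K F] [FF1 K F]

/-- At every place, some `t − const` has nonzero order (for `t` non-constant). -/
theorem exists_const_ord_sub_ne_zero497 (v : Place K F) {t : F}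
    (hnc : t ∉ Set.range (algebraMap K F)) :
    ∃ c : K, v.ord (t - algebraMap K F c) ≠ 0 := by
  by_cases h : 0 ≤ v.ord t
  · obtain ⟨c, hc | hc⟩ := exists_const_sub v (deg_eq_one v) h
    · exact absurd ⟨c, (sub_eq_zero.mp hc).symm⟩ hnc
    · exact ⟨c, hc.ne'⟩
  · refine ⟨0, ?_⟩
    rw [map_zero, sub_zero]
    omega

/-- A function of `L(m ∞)` which is regular at `∞` is constant. -/
theorem mem_range_of_mem_L_of_ord_nonneg497 {vinf : Place K F} {m : ℕ} {t : F}
    (ht : t ∈ riemannRochSpace (m • prim vinf)) (h : 0 ≤ vinf.ord t) :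
    t ∈ Set.range (algebraMap K F) := by
  have h0 : t ∈ riemannRochSpace (0 : Divisor K F) := by
    rw [mem_L_iff] at ht ⊢
    intro v
    rcases ht v with h1 | h1
    · exact Or.inl h1
    · right
      by_cases hv : v = vinf
      · subst hv
        simpa using h
      · rw [Finsupp.smul_apply, prim_apply_of_ne hv, smul_zero, neg_zero] at h1
        simpa using h1
  rw [L_zero] at h0
  obtain ⟨c, hc⟩ := h0
  exact ⟨c, hc⟩

/-- A non-constant function of `L(m ∞)` has a pole at `∞`. -/
theorem ord_neg_of_mem_L497 {vinf : Place K F} {m : ℕ} {t : F}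
    (ht : t ∈ riemannRochSpace (m • prim vinf)) (hnc : t ∉ Set.range (algebraMap K F)) :
    vinf.ord t < 0 := by
  by_contra h
  exact hnc (mem_range_of_mem_L_of_ord_nonneg497 ht (not_lt.mp h))

/-- A function of `L(m ∞)` is regular away from `∞`. -/
theorem ord_nonneg_of_mem_L497 {vinf : Place K F} {m : ℕ} {t : F}
    (ht : t ∈ riemannRochSpace (m • prim vinf)) {v : Place K F} (hv : v ≠ vinf) :
    0 ≤ v.ord t := by
  rcases (mem_L_iff.mp ht) v with h1 | h1
  · rw [h1, v.ord_zero]
  · rw [Finsupp.smul_apply, prim_apply_of_ne hv, smul_zero, neg_zero] at h1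
    exact h1

variable [IsAlgClosed K] [CharZero K]

/-- `dt ≠ 0` if `t` has a pole. -/
theorem D_ne_zero_of_ord_neg497 (v : Place K F) {t : F} (h : v.ord t < 0) : D K F t ≠ 0 := by
  intro h0
  have h1 := Fermat.Agent.Lib.RR.H80.ordDifferential_D_eq v (f := t) (by omega)
  have hgen := Fermat.Agent.Lib.RR.H80.dCoordGenerates_of_FF1 v
  have hnt : Nontrivial Ω[F⁄K] := by
    obtain ⟨ω, hω⟩ := Fermat.Agent.Lib.RR.H80.exists_kaehler_ne_zero K F
    exact ⟨⟨ω, 0, hω⟩⟩
  rw [h0, Place.ordDifferential, Place.differentialCoeff_zero, v.ord_zero] at h1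
  omega

/-- **`div(dt)` is invariant under every semilinear automorphism fixing `t`.** -/
theorem ordDifferential_D_smul497 (g : SemilinearAut K F) {t : F} (ht : g • t = t)
    (hnc : t ∉ Set.range (algebraMap K F)) (v : Place K F) :
    (g • v).ordDifferential (D K F t) = v.ordDifferential (D K F t) := by
  obtain ⟨c, hc⟩ := exists_const_ord_sub_ne_zero497 v hnc
  have e : g • (t - algebraMap K F c) = t - algebraMap K F (SemilinearAut.baseAut g c) := by
    rw [smul_sub, ht, SemilinearAut.smul_algebraMap]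
  have h1 : (g • v).ord (t - algebraMap K F (SemilinearAut.baseAut g c)) =
      v.ord (t - algebraMap K F c) := by
    rw [← e]
    exact SemilinearAut.ord_smul g v _
  rw [Fermat.Agent.Lib.RR.H80.ordDifferential_D_eq_sub v c hc,
    Fermat.Agent.Lib.RR.H80.ordDifferential_D_eq_sub (g • v) (SemilinearAut.baseAut g c)
      (by rw [h1]; exact hc), h1]

/-- **The ramification data of a coordinate `t ∈ L(m ∞)`**: `W = div(dt)`, `c = − W(∞) ≥ 2`,
`Rt = W + c ∞ ≥ 0`, `Rt(∞) = 0`, `deg Rt = 2g − 2 + c`. -/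
theorem exists_rt497 (vinf : Place K F) (m : ℕ) {t : F}
    (ht : t ∈ riemannRochSpace (m • prim vinf)) (hnc : t ∉ Set.range (algebraMap K F)) :
    ∃ (W Rt : Divisor K F) (c : ℕ), D K F t ≠ 0 ∧
      (∀ v : Place K F, W v = v.ordDifferential (D K F t)) ∧
      Rt = W + c • prim vinf ∧ 0 ≤ Rt ∧ Rt vinf = 0 ∧ 2 ≤ c ∧
      Divisor.degree Rt = 2 * (genusR K F : ℤ) - 2 + c := by
  have hpole := ord_neg_of_mem_L497 ht hnc
  have hD := D_ne_zero_of_ord_neg497 vinf hpole
  obtain ⟨W, hW, -⟩ := Fermat.Agent.Lib.RR.H80.exists_canonical_kaehler (D K F t) hD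
  have hWinf : W vinf = vinf.ord t - 1 := by
    rw [hW, Fermat.Agent.Lib.RR.H80.ordDifferential_D_eq vinf (by omega)]
  have hc : ((- W vinf).toNat : ℤ) = - W vinf := Int.toNat_of_nonneg (by omega)
  refine ⟨W, W + (- W vinf).toNat • prim vinf, (- W vinf).toNat, hD, hW, rfl, ?_, ?_, ?_, ?_⟩
  · rw [Finsupp.le_def]
    intro v
    rw [Finsupp.coe_zero, Pi.zero_apply, Finsupp.add_apply, Finsupp.smul_apply]
    by_cases hv : v = vinf
    · subst hv
      rw [prim_apply_self, nsmul_eq_mul, mul_one, hc]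
      omega
    · rw [prim_apply_of_ne hv, smul_zero, add_zero, hW]
      exact Fermat.Agent.Lib.RR.H80.ordDifferential_D_nonneg v (ord_nonneg_of_mem_L497 ht hv)
  · rw [Finsupp.add_apply, Finsupp.smul_apply, prim_apply_self, nsmul_eq_mul, mul_one, hc]
    omega
  · omega
  · rw [map_add, map_nsmul, degree_prim', Fermat.Agent.Lib.RR.H80.degree_kaehler hD hW,
      genusFF_eq_genusR, nsmul_eq_mul, mul_one]

end Abstract

/-! ## The Galois part -/

section Galois

open Fermat.Agent.S17.H77 Fermat.Agent.S17.H680 Fermat.Agent.S17.H980 ModularCurve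
open Fermat.Agent.S17.H35 Fermat.Agent.S17.H500.Top

variable (F₀ : IntermediateField ℚ (LaurentSeries ℚ)) [FF1 Qb (laurentBaseChange Qb F₀)]

/-- **`div(dt)` is Galois-invariant** for a Galois-fixed non-constant `t`. -/
theorem isInvariant_divD497 {t : laurentBaseChange Qb F₀} (htfix : IsFixed F₀ t)
    (hnc : t ∉ Set.range (algebraMap Qb (laurentBaseChange Qb F₀)))
    {W : Divisor Qb (laurentBaseChange Qb F₀)}
    (hW : ∀ v : Place Qb (laurentBaseChange Qb F₀),
      W v = v.ordDifferential (D Qb (laurentBaseChange Qb F₀) t)) :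
    IsInvariant F₀ W := by
  intro σ
  ext v
  rw [SemilinearAut.divisor_smul_apply, hW, hW]
  have hfix : (arithmeticGalois F₀ σ)⁻¹ • t = t := by
    have h := htfix σ
    rw [← h, inv_smul_smul, h]
  exact ordDifferential_D_smul497 _ hfix hnc v

/-- **RT-DATA.** For a Galois-fixed non-constant `t ∈ L(m ∞)` (`∞` invariant) and (GAUSS) at
canonical divisors: an effective Galois-invariant divisor `Rt` prime to `∞` and `c ≥ 2` with
`Rt − c ∞ = div(dt)`, `deg Rt = 2g − 2 + c`, and (GAUSS) at `Rt − c ∞`. -/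
theorem exists_rtData497 (E : EmbData Qb (laurentBaseChange Qb F₀))
    (hinf : IsInvariant F₀ (prim E.vinf))
    {t : laurentBaseChange Qb F₀} (htfix : IsFixed F₀ t)
    (htmem : t ∈ riemannRochSpace (E.m • prim E.vinf))
    (hnc : t ∉ Set.range (algebraMap Qb (laurentBaseChange Qb F₀)))
    (hG : GAUSSCanStatement E) :
    ∃ (Rt : Divisor Qb (laurentBaseChange Qb F₀)) (c : ℕ),
      0 ≤ Rt ∧ IsInvariant F₀ Rt ∧ Rt E.vinf = 0 ∧ 2 ≤ c ∧
      Divisor.degree Rt = 2 * (genusR Qb (laurentBaseChange Qb F₀) : ℤ) - 2 + c ∧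
      (∀ v : Place Qb (laurentBaseChange Qb F₀),
        (Rt - (c : ℤ) • prim E.vinf) v =
          v.ordDifferential (D Qb (laurentBaseChange Qb F₀) t)) ∧
      GaussRtStatement E Rt c := by
  obtain ⟨W, Rt, c, hD, hW, hRt, h0, hRinf, hc, hdeg⟩ := exists_rt497 E.vinf E.m htmem hnc
  have hWinv : IsInvariant F₀ W := isInvariant_divD497 F₀ htfix hnc hW
  have hWeq : Rt - (c : ℤ) • prim E.vinf = W := by
    rw [hRt, natCast_zsmul]
    abel
  refine ⟨Rt, c, h0, ?_, hRinf, hc, hdeg, ?_, ?_⟩
  · intro σ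
    rw [hRt, smul_add, hWinv σ, smul_comm, hinf σ]
  · intro v
    rw [hWeq, hW]
  · apply gaussRt_of
    rw [hWeq]
    exact hG _ W hD hW

/-- RT-DATA with `c` expressed through `deg Rt` (shape consumed by `H35.gauss` on
`H736.TopInput`). -/
theorem exists_rtData_deg497 (E : EmbData Qb (laurentBaseChange Qb F₀))
    (hinf : IsInvariant F₀ (prim E.vinf))
    {t : laurentBaseChange Qb F₀} (htfix : IsFixed F₀ t)
    (htmem : t ∈ riemannRochSpace (E.m • prim E.vinf))
    (hnc : t ∉ Set.range (algebraMap Qb (laurentBaseChange Qb F₀)))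
    (hG : GAUSSCanStatement E) :
    ∃ Rt : Divisor Qb (laurentBaseChange Qb F₀),
      0 ≤ Rt ∧ IsInvariant F₀ Rt ∧ Rt E.vinf = 0 ∧
      GaussRtStatement E Rt
        (Divisor.degree Rt - (2 * (genusR Qb (laurentBaseChange Qb F₀) : ℤ) - 2)) := by
  obtain ⟨Rt, c, h0, hinv, hRinf, -, hdeg, -, hGR⟩ :=
    exists_rtData497 F₀ E hinf htfix htmem hnc hG
  refine ⟨Rt, h0, hinv, hRinf, ?_⟩
  have e : Divisor.degree Rt - (2 * (genusR Qb (laurentBaseChange Qb F₀) : ℤ) - 2) = (c : ℤ) := by
    rw [hdeg]; ring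
  rw [e]
  exact hGR

/-- **`GAUSSCanStatement E ⟹ GaussPlusStatement F₀ E`**, given a Galois-fixed non-constant
`t ∈ L(m ∞)`. -/
theorem gaussPlus_of_gaussCan497 (E : EmbData Qb (laurentBaseChange Qb F₀))
    (hinf : IsInvariant F₀ (prim E.vinf))
    {t : laurentBaseChange Qb F₀} (htfix : IsFixed F₀ t)
    (htmem : t ∈ riemannRochSpace (E.m • prim E.vinf))
    (hnc : t ∉ Set.range (algebraMap Qb (laurentBaseChange Qb F₀)))
    (hG : GAUSSCanStatement E) : GaussPlusStatement F₀ E := by
  obtain ⟨Rt, c, h0, hinv, hRinf, -, hdeg, -, C, hC⟩ :=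
    exists_rtData497 F₀ E hinf htfix htmem hnc hG
  refine ⟨Rt, c, C, h0, hinv, hRinf, hdeg, fun P hP hPinf => ?_⟩
  have := hC P hP hPinf
  push_cast at this
  exact this

end Galois

end Fermat.Agent.S17.H497
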